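import Mathlib
import Fermat.Agent.S30.Hecke.Parabolic
import Fermat.Agent.S41.Deg.Par
import Fermat.Agent.S41.Amalgam.Lift
import Fermat.Agent.S41.EisCong
import Fermat.Agent.S41.CongModule

/-!
# PROJECT R (S41), slice C5 (Ihara assembly): SEAM 1 from the weak Ihara lemma

`q` a prime not dividing `N`, `p` a prime different from `q`.  The lattice is
`Lat N = parabolicHoms ℤ (Gamma0 N) ℤ` with the degeneracy maps `alphaPar1`, `alphaPar2` to level
`N q` (`S41/Deg/Par`).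

If `x y : Lat N` satisfy `α₁ x + α₂ y ∈ p Lat (N q)`, the reductions `χ₁ = x mod p`,
`χ₂ = y mod p : Γ₀(N) → ℤ/p` satisfy `χ₁ (c) + χ₂ (δ c δ⁻¹) = 0` on `Γ₀(N q)`, hence glue to ONE
additive character `Φ` of `Γ₀(N)[1/q]` (`Amalgam.ihara_kernel`).  The weak Ihara lemma (slice C4,
consumed here through its literal statement `WeakIharaAt`) says that
`τ_r τ_r χ_i = (r + 1)² χ_i` on `Γ₀(N) ∩ Γ(D)` for a suitable `D = D(N, q, r)`; by
`EisCong.tauAll_eq_of_congruence` the operator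
`η = (τ_{r'} - (r' + 1)) ∘ (τ_r τ_r - (r + 1)²)`, `r' ≡ 1 mod D`, kills `χ₁` and `χ₂`, i.e.
`η x, η y ∈ p Lat N`.

* `conjQ_eq_conjC`, `inclQ_eq_inclC` : the two versions of the maps `Γ₀(N q) → Γ₀(N)` agree;
* `redHom p`, `inP_of_redHom_eq_zero`, `redHom_tauPar` : reduction modulo `p` of the lattice;
* `WeakIharaAt` : the statement of C4 at one prime `r` and one level `D`;
* **`iharaMod_of_weakIhara`** : SEAM 1 in the literal shape consumed by `S41/Lift`.
-/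

set_option autoImplicit false
set_option linter.unusedSectionVars false
set_option linter.style.haveILetI false

open CongruenceSubgroup Matrix.SpecialLinearGroup ModularForm ModularCurve.Period
open scoped MatrixGroups

noncomputable section

namespace Fermat.Agent.S41.Ihara.Assembly

open Fermat.Agent.S30.Hecke.DoubleCoset Fermat.Agent.S30.Hecke.Gamma0Cosets
  Fermat.Agent.S30.Hecke.Parabolic Fermat.Agent.S41.Deg.Reps Fermat.Agent.S41.Deg.Maps
  Fermat.Agent.S41.Deg.Par Fermat.Agent.S41.Amalgam Fermat.Agent.S41.CongModule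
  Fermat.Agent.S41.EisCong

/-! ### the two versions of `Γ₀(N q) → Γ₀(N)` agree -/

theorem inclQ_eq_inclC (N q : ℕ) (c : Gamma0 (N * q)) : inclQ N q c = inclC N q c := rfl

theorem conjQ_eq_conjC {N q : ℕ} [NeZero q] (hq : q.Prime) (hqN : ¬ q ∣ N) (c : Gamma0 (N * q)) :
    conjQ hq hqN c = conjC N q c := by
  apply Subtype.ext
  apply ext_entries_int <;> rfl

/-! ### reduction modulo `p` of the lattice -/

section Red

variable {Γ : Subgroup SL(2, ℤ)}

/-- reduction modulo `p` of a parabolic homomorphism -/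
def redHom (Γ : Subgroup SL(2, ℤ)) (p : ℕ) :
    parabolicHoms ℤ Γ ℤ →+ (Additive Γ →+ ZMod p) :=
  (AddMonoidHom.compHom (Int.castAddHom (ZMod p))).comp
    (parabolicHoms ℤ Γ ℤ).subtype.toAddMonoidHom

theorem redHom_apply (p : ℕ) (w : parabolicHoms ℤ Γ ℤ) (g : Γ) :
    redHom Γ p w (Additive.ofMul g) =
      (((w : Additive Γ →+ ℤ) (Additive.ofMul g) : ℤ) : ZMod p) := rfl

theorem redHom_eq (p : ℕ) (w : parabolicHoms ℤ Γ ℤ) :
    redHom Γ p w = (Int.castAddHom (ZMod p)).comp (w : Additive Γ →+ ℤ) := rfl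

theorem redHom_isParabolicHom (p : ℕ) (w : parabolicHoms ℤ Γ ℤ) :
    IsParabolicHom Γ (redHom Γ p w) := by
  intro g hg
  rw [redHom_apply, w.2 g hg, Int.cast_zero]

/-- an element of the lattice all of whose values are divisible by `p` is `p` times an element of
the lattice -/
theorem inP_of_forall_dvd {p : ℕ} (hp : p ≠ 0) (w : parabolicHoms ℤ Γ ℤ)
    (h : ∀ g : Γ, (p : ℤ) ∣ (w : Additive Γ →+ ℤ) (Additive.ofMul g)) : InP p w := by
  have hp' : (p : ℤ) ≠ 0 := by exact_mod_cast hp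
  set z : Additive Γ →+ ℤ := AddMonoidHom.mk'
    (fun g => (w : Additive Γ →+ ℤ) g / (p : ℤ)) (by
      intro a b
      show (w : Additive Γ →+ ℤ) (a + b) / (p : ℤ) = _
      rw [map_add]
      exact Int.add_ediv_of_dvd_left (h (Additive.toMul a))) with hz
  have hzpar : IsParabolicHom Γ z := by
    intro g hg
    show (w : Additive Γ →+ ℤ) (Additive.ofMul g) / (p : ℤ) = 0
    rw [w.2 g hg, Int.zero_ediv]
  refine ⟨⟨z, hzpar⟩, ?_⟩
  apply Subtype.ext
  refine AddMonoidHom.ext fun g => ?_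
  show (w : Additive Γ →+ ℤ) g = (p : ℤ) • ((w : Additive Γ →+ ℤ) g / (p : ℤ))
  rw [smul_eq_mul]
  exact (Int.mul_ediv_cancel' (h (Additive.toMul g))).symm

theorem inP_of_redHom_eq_zero {p : ℕ} (hp : p ≠ 0) (w : parabolicHoms ℤ Γ ℤ)
    (h : redHom Γ p w = 0) : InP p w := by
  refine inP_of_forall_dvd hp w fun g => ?_
  rw [← ZMod.intCast_zmod_eq_zero_iff_dvd, ← redHom_apply, h]
  rfl

theorem redHom_eq_zero_of_inP {p : ℕ} (w : parabolicHoms ℤ Γ ℤ) (h : InP p w) :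
    redHom Γ p w = 0 := by
  obtain ⟨z, rfl⟩ := h
  refine AddMonoidHom.ext fun g => ?_
  show ((((p : ℤ) • z : parabolicHoms ℤ Γ ℤ) : Additive Γ →+ ℤ) g : ZMod p) = 0
  rw [Submodule.coe_smul, AddMonoidHom.smul_apply, smul_eq_mul]
  push_cast
  rw [ZMod.natCast_self, zero_mul]

end Red

theorem redHom_tauPar {N : ℕ} (p r : ℕ) (hr : r.Prime) (w : parabolicHoms ℤ (Gamma0 N) ℤ) :
    redHom (Gamma0 N) p (tauPar ℤ ℤ N r hr w) = tauAll N r hr (redHom (Gamma0 N) p w) := by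
  rw [redHom_eq, coe_tauPar, comp_tauAll]
  rfl

/-! ### the statement of the weak Ihara lemma (slice C4) -/

/-- **the weak Ihara lemma at the prime `r` and the level `D`** (the literal statement of slice C4):
for every additive character `Φ` of `Γ₀(N)[1/q]` with values in `F` whose two restrictions to
`Γ₀(N)` are parabolic, `τ_r τ_r χ = (r + 1)² χ` on `Γ₀(N) ∩ Γ(D)` for both restrictions `χ`. -/
def WeakIharaAt (N q : ℕ) [NeZero q] (F : Type*) [AddCommGroup F] (r : ℕ) (hr : r.Prime)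
    (D : ℕ) : Prop :=
  ∀ Φ : Additive (GammaQ N q) →+ F,
    IsParabolicHom (Gamma0 N) (Φ.comp (MonoidHom.toAdditive (incA N q))) →
    IsParabolicHom (Gamma0 N) (Φ.comp (MonoidHom.toAdditive (incB N q))) →
    ∀ g : Gamma0 N, (g : SL(2, ℤ)) ∈ Gamma D →
      tauAll N r hr (tauAll N r hr (Φ.comp (MonoidHom.toAdditive (incA N q))))
          (Additive.ofMul g) =
        ((r : ℤ) + 1) ^ 2 • Φ (Additive.ofMul (incA N q g)) ∧
      tauAll N r hr (tauAll N r hr (Φ.comp (MonoidHom.toAdditive (incB N q))))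
          (Additive.ofMul g) =
        ((r : ℤ) + 1) ^ 2 • Φ (Additive.ofMul (incB N q g))

/-! ### the operator `η` -/

/-- `w ↦ τ_r τ_r w - (r + 1)² w` on homomorphisms -/
def sqOp {A : Type*} [AddCommGroup A] (N r : ℕ) (hr : r.Prime)
    (φ : Additive (Gamma0 N) →+ A) : Additive (Gamma0 N) →+ A :=
  tauAll N r hr (tauAll N r hr φ) - ((r : ℤ) + 1) ^ 2 • φ

/-- a homomorphism `χ` with `τ_r τ_r χ = (r + 1)² χ` on `Γ₀(N) ∩ Γ(D)` is killed by
`(τ_{r'} - (r' + 1)) ∘ (τ_r τ_r - (r + 1)²)` for the primes `r' ≡ 1 mod D`, `r' ∤ N` -/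
theorem eta_eq_zero {A : Type*} [AddCommGroup A] {N D r r' : ℕ} (hr : r.Prime) (hr' : r'.Prime)
    (hr'N : ¬ r' ∣ N) (hr'D : r' ≡ 1 [MOD D]) (χ : Additive (Gamma0 N) →+ A)
    (h : ∀ g : Gamma0 N, (g : SL(2, ℤ)) ∈ Gamma D →
      tauAll N r hr (tauAll N r hr χ) (Additive.ofMul g) =
        ((r : ℤ) + 1) ^ 2 • χ (Additive.ofMul g)) :
    tauAll N r' hr' (sqOp N r hr χ) - ((r' : ℤ) + 1) • sqOp N r hr χ = 0 := by
  have h1 : (r' : ZMod D) = 1 := by
    have := (ZMod.natCast_eq_natCast_iff r' 1 D).mpr hr'D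
    rwa [Nat.cast_one] at this
  have h2 := tauAll_eq_of_congruence N D r' hr' hr'N h1 (sqOp N r hr χ) (by
    intro g hg
    show tauAll N r hr (tauAll N r hr χ) (Additive.ofMul g) -
      (((r : ℤ) + 1) ^ 2 • χ) (Additive.ofMul g) = 0
    rw [h g hg, AddMonoidHom.smul_apply, sub_self])
  rw [h2, sub_eq_zero]
  exact_mod_cast (natCast_zsmul (sqOp N r hr χ) (r' + 1)).symm

/-! ### SEAM 1 -/

section Seam

variable {N q p : ℕ}

/-- the relation between the reductions of `x`, `y` with `α₁ x + α₂ y ∈ p Lat (N q)` -/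
theorem red_rel [NeZero q] (hq : q.Prime) (hqN : ¬ q ∣ N)
    (x y : parabolicHoms ℤ (Gamma0 N) ℤ)
    (hxy : InP p (alphaPar1 ℤ ℤ N q x + alphaPar2 hq hqN ℤ ℤ y)) (c : Gamma0 (N * q)) :
    redHom (Gamma0 N) p x (Additive.ofMul (inclC N q c)) +
      redHom (Gamma0 N) p y (Additive.ofMul (conjC N q c)) = 0 := by
  have h := redHom_eq_zero_of_inP _ hxy
  have h1 := DFunLike.congr_fun h (Additive.ofMul c)
  rw [redHom_apply, Submodule.coe_add, AddMonoidHom.add_apply, alphaPar1_apply,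
    alphaPar2_apply, inclQ_eq_inclC, conjQ_eq_conjC] at h1
  rw [redHom_apply, redHom_apply, ← Int.cast_add]
  exact h1

/-- **SEAM 1 (Ihara), from the weak Ihara lemma**: the operator
`η = (τ_{r'} - (r' + 1)) ∘ (τ_r τ_r - (r + 1)²)` maps the kernel of `α = (α₁, α₂)` modulo `p` into
`p Lat N`. -/
theorem iharaMod_of_weakIhara [NeZero q] (hq : q.Prime) (hqN : ¬ q ∣ N) (hp : p ≠ 0)
    (hweak : ∀ (r : ℕ) (hr : r.Prime), ¬ r ∣ N * q →
      ∃ D : ℕ, 0 < D ∧ WeakIharaAt N q (ZMod p) r hr D) :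
    ∀ (r : ℕ) (hr : r.Prime), ¬ r ∣ N * q → ∃ D : ℕ, 0 < D ∧
      ∀ (r' : ℕ) (hr' : r'.Prime), r' ≡ 1 [MOD D] → ¬ r' ∣ N * q →
        ∀ x y : parabolicHoms ℤ (Gamma0 N) ℤ,
          InP p (alphaPar1 ℤ ℤ N q x + alphaPar2 hq hqN ℤ ℤ y) →
          InP p (tauPar ℤ ℤ N r' hr'
              (tauPar ℤ ℤ N r hr (tauPar ℤ ℤ N r hr x) - ((r : ℤ) + 1) ^ 2 • x) -
            ((r' : ℤ) + 1) •
              (tauPar ℤ ℤ N r hr (tauPar ℤ ℤ N r hr x) - ((r : ℤ) + 1) ^ 2 • x)) ∧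
          InP p (tauPar ℤ ℤ N r' hr'
              (tauPar ℤ ℤ N r hr (tauPar ℤ ℤ N r hr y) - ((r : ℤ) + 1) ^ 2 • y) -
            ((r' : ℤ) + 1) •
              (tauPar ℤ ℤ N r hr (tauPar ℤ ℤ N r hr y) - ((r : ℤ) + 1) ^ 2 • y)) := by
  intro r hr hrNq
  obtain ⟨D, hD, hW⟩ := hweak r hr hrNq
  refine ⟨D, hD, fun r' hr' hr'D hr'Nq x y hxy => ?_⟩
  have hr'N : ¬ r' ∣ N := fun h => hr'Nq (dvd_mul_of_dvd_left h q)
  set χ₁ := redHom (Gamma0 N) p x with hχ₁
  set χ₂ := redHom (Gamma0 N) p y with hχ₂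
  obtain ⟨Φ, hΦA, hΦB⟩ := ihara_kernel hq hqN χ₁ χ₂ (red_rel hq hqN x y hxy)
  have hA : Φ.comp (MonoidHom.toAdditive (incA N q)) = χ₁ :=
    AddMonoidHom.ext fun g => hΦA (Additive.toMul g)
  have hB : Φ.comp (MonoidHom.toAdditive (incB N q)) = -χ₂ :=
    AddMonoidHom.ext fun g => hΦB (Additive.toMul g)
  have hpar₁ : IsParabolicHom (Gamma0 N) χ₁ := redHom_isParabolicHom p x
  have hpar₂ : IsParabolicHom (Gamma0 N) (-χ₂) := by
    intro g hg
    rw [AddMonoidHom.neg_apply, redHom_isParabolicHom p y g hg, neg_zero]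
  have hW' := hW Φ (hA ▸ hpar₁) (hB ▸ hpar₂)
  rw [hA, hB] at hW'
  -- the two congruences
  have h₁ : ∀ g : Gamma0 N, (g : SL(2, ℤ)) ∈ Gamma D →
      tauAll N r hr (tauAll N r hr χ₁) (Additive.ofMul g) =
        ((r : ℤ) + 1) ^ 2 • χ₁ (Additive.ofMul g) := by
    intro g hg
    rw [(hW' g hg).1, hΦA]
  have h₂ : ∀ g : Gamma0 N, (g : SL(2, ℤ)) ∈ Gamma D →
      tauAll N r hr (tauAll N r hr χ₂) (Additive.ofMul g) =
        ((r : ℤ) + 1) ^ 2 • χ₂ (Additive.ofMul g) := by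
    intro g hg
    have h := (hW' g hg).2
    rw [hΦB, map_neg, map_neg, AddMonoidHom.neg_apply, smul_neg] at h
    exact neg_injective h
  have key : ∀ z : parabolicHoms ℤ (Gamma0 N) ℤ,
      (∀ g : Gamma0 N, (g : SL(2, ℤ)) ∈ Gamma D →
        tauAll N r hr (tauAll N r hr (redHom (Gamma0 N) p z)) (Additive.ofMul g) =
          ((r : ℤ) + 1) ^ 2 • redHom (Gamma0 N) p z (Additive.ofMul g)) →
      InP p (tauPar ℤ ℤ N r' hr'
          (tauPar ℤ ℤ N r hr (tauPar ℤ ℤ N r hr z) - ((r : ℤ) + 1) ^ 2 • z) -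
        ((r' : ℤ) + 1) •
          (tauPar ℤ ℤ N r hr (tauPar ℤ ℤ N r hr z) - ((r : ℤ) + 1) ^ 2 • z)) := by
    intro z hz
    apply inP_of_redHom_eq_zero hp
    rw [map_sub, map_zsmul, redHom_tauPar, map_sub, map_zsmul, redHom_tauPar, redHom_tauPar]
    exact eta_eq_zero hr hr' hr'N hr'D (redHom (Gamma0 N) p z) hz
  exact ⟨key x h₁, key y h₂⟩

end Seam

end Fermat.Agent.S41.Ihara.Assembly
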