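import Mathlib
import Fermat.Agent.S41.Ihara.Assembly

/-!
# PROJECT R (S41), slice C5 (complement): two reductions for the weak Ihara lemma

* `twist N q : GammaQ N q →* GammaQ N q`, conjugation by `diag(1, q)` (`[a, b; c, d] ↦
  [a, b / q; q c, d]`), with `twist (incA g) = incB g`; hence the `incB` half of `WeakIharaAt`
  follows from the `incA` half applied to `Φ ∘ twist`: **`weakIharaAt_of_half`**;
* **`map_eq_zero_of_trace_eq_two`** : an additive character `Φ` of `Γ₀(N)[1/q]` with values in a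
  group without `q`-torsion, whose restriction to `Γ₀(N)` is parabolic, kills every element of
  trace `2` of `Γ₀(N)[1/q]` (`g ^ (q ^ k)` is integral for `k` large).
-/

set_option autoImplicit false
set_option linter.unusedSectionVars false
set_option linter.style.haveILetI false

open CongruenceSubgroup Matrix.SpecialLinearGroup ModularForm ModularCurve.Period
open scoped MatrixGroups

noncomputable section

namespace Fermat.Agent.S41.Ihara.Twist

open Fermat.Agent.S30.Hecke.DoubleCoset Fermat.Agent.S30.Hecke.Gamma0Cosets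
  Fermat.Agent.S30.Hecke.Parabolic Fermat.Agent.S41.Amalgam Fermat.Agent.S41.Ihara.Assembly

/-! ### the twist -/

theorem conjDiag_mem_GammaQ {N q : ℕ} (hq : q ≠ 0) {g : SL(2, ℚ)} (hg : g ∈ GammaQ N q) :
    conjDiag (q : ℚ) (Nat.cast_ne_zero.mpr hq) g ∈ GammaQ N q := by
  have hq' : (q : ℚ) ≠ 0 := Nat.cast_ne_zero.mpr hq
  obtain ⟨h1, h2⟩ := hg
  refine ⟨fun i j => ?_, ?_⟩
  · fin_cases i <;> fin_cases j
    · exact h1 0 0
    · obtain ⟨k, n, hn⟩ := h1 0 1
      refine ⟨k + 1, n, ?_⟩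
      show (q : ℚ) ^ (k + 1) * (g.1 0 1 / q) = _
      rw [← hn]
      field_simp
      ring
    · show IsQInt q ((q : ℚ) * g.1 1 0)
      exact (IsQInt.intCast q (q : ℤ)).mul (h1 1 0)
    · exact h1 1 1
  · show IsQIntMul q N ((q : ℚ) * g.1 1 0)
    exact IsQIntMul.mul_left (IsQInt.intCast q (q : ℤ)) h2

/-- conjugation by `diag(1, q)` on `Γ₀(N)[1/q]` -/
def twist (N q : ℕ) [NeZero q] : GammaQ N q →* GammaQ N q :=
  ((conjDiag (q : ℚ) (Nat.cast_ne_zero.mpr (NeZero.ne q))).comp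
    (GammaQ N q).subtype).codRestrict (GammaQ N q)
    (fun g => conjDiag_mem_GammaQ (NeZero.ne q) g.2)

theorem twist_incA (N q : ℕ) [NeZero q] (g : Gamma0 N) :
    twist N q (incA N q g) = incB N q g := rfl

/-- the `incA` half of `WeakIharaAt` -/
def WeakIharaHalf (N q : ℕ) [NeZero q] (F : Type*) [AddCommGroup F] (r : ℕ) (hr : r.Prime)
    (D : ℕ) : Prop :=
  ∀ Φ : Additive (GammaQ N q) →+ F,
    IsParabolicHom (Gamma0 N) (Φ.comp (MonoidHom.toAdditive (incA N q))) →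
    ∀ g : Gamma0 N, (g : SL(2, ℤ)) ∈ Gamma D →
      tauAll N r hr (tauAll N r hr (Φ.comp (MonoidHom.toAdditive (incA N q))))
          (Additive.ofMul g) =
        ((r : ℤ) + 1) ^ 2 • Φ (Additive.ofMul (incA N q g))

/-- **the `incA` half of the weak Ihara lemma implies the whole** -/
theorem weakIharaAt_of_half {N q : ℕ} [NeZero q] {F : Type*} [AddCommGroup F] {r : ℕ}
    {hr : r.Prime} {D : ℕ} (h : WeakIharaHalf N q F r hr D) : WeakIharaAt N q F r hr D := by
  intro Φ hA hB g hg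
  refine ⟨h Φ hA g hg, ?_⟩
  have hcomp : (Φ.comp (MonoidHom.toAdditive (twist N q))).comp
      (MonoidHom.toAdditive (incA N q)) = Φ.comp (MonoidHom.toAdditive (incB N q)) := rfl
  have h2 := h (Φ.comp (MonoidHom.toAdditive (twist N q))) (by rw [hcomp]; exact hB) g hg
  rw [hcomp] at h2
  exact h2

/-! ### elements of trace `2` -/

theorem trace_two_sq (M : Matrix (Fin 2) (Fin 2) ℚ) (hdet : M.det = 1) (htr : M.trace = 2) :
    (M - 1) * (M - 1) = 0 := by
  rw [Matrix.trace_fin_two] at htr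
  rw [Matrix.det_fin_two] at hdet
  ext i j
  fin_cases i <;> fin_cases j <;>
    simp only [Matrix.mul_apply, Fin.sum_univ_two, Matrix.sub_apply, Matrix.one_apply,
      Matrix.zero_apply, Fin.zero_eta, Fin.mk_one, Fin.isValue, if_true, if_false,
      zero_ne_one, one_ne_zero]
  · linear_combination (M 0 0) * htr - hdet
  · linear_combination (M 0 1) * htr
  · linear_combination (M 1 0) * htr
  · linear_combination (M 1 1) * htr - hdet

theorem pow_of_trace_two (M : Matrix (Fin 2) (Fin 2) ℚ) (hdet : M.det = 1) (htr : M.trace = 2)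
    (m : ℕ) : M ^ m = 1 + (m : ℚ) • (M - 1) := by
  have hsq := trace_two_sq M hdet htr
  obtain ⟨n0, rfl⟩ : ∃ n0, M = 1 + n0 := ⟨M - 1, by abel⟩
  rw [add_sub_cancel_left] at hsq ⊢
  clear hdet htr
  induction m with
  | zero => simp
  | succ m ih =>
    rw [pow_succ, ih, add_mul, one_mul, mul_add, mul_one, smul_mul_assoc, hsq, smul_zero,
      add_zero]
    push_cast
    rw [add_smul, one_smul]
    abel

/-- denominators can be cleared uniformly -/
theorem IsQInt.exists_pow_mul {q : ℕ} {x : ℚ} (hx : IsQInt q x) :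
    ∃ k : ℕ, ∀ k' : ℕ, k ≤ k' → ∃ n : ℤ, (q : ℚ) ^ k' * x = n := by
  obtain ⟨k, n, hn⟩ := hx
  refine ⟨k, fun k' hk => ⟨(q : ℤ) ^ (k' - k) * n, ?_⟩⟩
  obtain ⟨j, rfl⟩ := Nat.exists_eq_add_of_le hk
  rw [Nat.add_sub_cancel_left, pow_add]
  push_cast
  rw [← hn]
  ring

theorem IsQIntMul.exists_pow_mul {q N : ℕ} {x : ℚ} (hx : IsQIntMul q N x) :
    ∃ k : ℕ, ∀ k' : ℕ, k ≤ k' → ∃ n : ℤ, (q : ℚ) ^ k' * x = ((N : ℤ) * n : ℤ) := by
  obtain ⟨k, n, hn⟩ := hx
  refine ⟨k, fun k' hk => ⟨(q : ℤ) ^ (k' - k) * n, ?_⟩⟩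
  obtain ⟨j, rfl⟩ := Nat.exists_eq_add_of_le hk
  rw [Nat.add_sub_cancel_left, pow_add]
  push_cast
  have e : (q : ℚ) ^ k * (q : ℚ) ^ j * x = (q : ℚ) ^ j * ((q : ℚ) ^ k * x) := by ring
  rw [e, hn]
  ring

theorem smul_pow_eq_zero {F : Type*} [AddCommGroup F] {q : ℕ}
    (hF : ∀ f : F, q • f = 0 → f = 0) (k : ℕ) (f : F) (h : (q ^ k) • f = 0) : f = 0 := by
  induction k generalizing f with
  | zero => simpa using h
  | succ k ih =>
    rw [pow_succ, mul_smul] at h
    exact hF f (ih _ h)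

/-- a power `g ^ (q ^ k)` of an element of trace `2` of `Γ₀(N)[1/q]` lies in `Γ₀(N)` (and has
trace `2`) -/
theorem exists_pow_eq_incA {N q : ℕ} (g : GammaQ N q) (htr : g.1.1 0 0 + g.1.1 1 1 = 2) :
    ∃ (k : ℕ) (γ : Gamma0 N), g ^ (q ^ k) = incA N q γ ∧
      ((γ : SL(2, ℤ)) : Matrix (Fin 2) (Fin 2) ℤ).trace = 2 := by
  obtain ⟨h1, h2⟩ := g.2
  have hpow : ∀ m : ℕ, ((g ^ m : GammaQ N q) : SL(2, ℚ)).1 = 1 + (m : ℚ) • (g.1.1 - 1) := by
    intro m
    rw [SubgroupClass.coe_pow, Matrix.SpecialLinearGroup.coe_pow]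
    exact pow_of_trace_two _ g.1.2 (by rw [Matrix.trace_fin_two]; exact htr) m
  obtain ⟨k00, hk00⟩ := IsQInt.exists_pow_mul ((h1 0 0).sub (IsQInt.one q))
  obtain ⟨k01, hk01⟩ := IsQInt.exists_pow_mul (h1 0 1)
  obtain ⟨k10, hk10⟩ := IsQIntMul.exists_pow_mul h2
  obtain ⟨k11, hk11⟩ := IsQInt.exists_pow_mul ((h1 1 1).sub (IsQInt.one q))
  set k := k00 + k01 + k10 + k11 with hk
  obtain ⟨e00, he00⟩ := hk00 k (by omega)
  obtain ⟨e01, he01⟩ := hk01 k (by omega)
  obtain ⟨e10, he10⟩ := hk10 k (by omega)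
  obtain ⟨e11, he11⟩ := hk11 k (by omega)
  have hcast : ((q ^ k : ℕ) : ℚ) = (q : ℚ) ^ k := by push_cast; rfl
  have hP := hpow (q ^ k)
  have p00 : ((g ^ (q ^ k) : GammaQ N q) : SL(2, ℚ)).1 0 0 = ((1 + e00 : ℤ) : ℚ) := by
    rw [hP, hcast]
    simp only [Matrix.add_apply, Matrix.smul_apply, Matrix.sub_apply, Matrix.one_apply_eq,
      smul_eq_mul]
    rw [he00]
    push_cast
    ring
  have p01 : ((g ^ (q ^ k) : GammaQ N q) : SL(2, ℚ)).1 0 1 = ((e01 : ℤ) : ℚ) := by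
    rw [hP, hcast]
    simp only [Matrix.add_apply, Matrix.smul_apply, Matrix.sub_apply, smul_eq_mul, ne_eq,
      zero_ne_one, not_false_eq_true, Matrix.one_apply_ne, sub_zero, zero_add]
    rw [he01]
  have p10 : ((g ^ (q ^ k) : GammaQ N q) : SL(2, ℚ)).1 1 0 = (((N : ℤ) * e10 : ℤ) : ℚ) := by
    rw [hP, hcast]
    simp only [Matrix.add_apply, Matrix.smul_apply, Matrix.sub_apply, smul_eq_mul, ne_eq,
      one_ne_zero, not_false_eq_true, Matrix.one_apply_ne, sub_zero, zero_add]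
    rw [he10]
  have p11 : ((g ^ (q ^ k) : GammaQ N q) : SL(2, ℚ)).1 1 1 = ((1 + e11 : ℤ) : ℚ) := by
    rw [hP, hcast]
    simp only [Matrix.add_apply, Matrix.smul_apply, Matrix.sub_apply, Matrix.one_apply_eq,
      smul_eq_mul]
    rw [he11]
    push_cast
    ring
  have hdet : (1 + e00) * (1 + e11) - e01 * ((N : ℤ) * e10) = 1 := by
    have h := det_entries ((g ^ (q ^ k) : GammaQ N q) : SL(2, ℚ))
    rw [p00, p01, p10, p11] at h
    exact_mod_cast h
  have htrace : e00 + e11 = 0 := by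
    have h : ((e00 : ℤ) : ℚ) + ((e11 : ℤ) : ℚ) = 0 := by
      rw [← he00, ← he11, ← mul_add]
      have : g.1.1 0 0 - 1 + (g.1.1 1 1 - 1) = 0 := by linear_combination htr
      rw [this, mul_zero]
    exact_mod_cast h
  refine ⟨k, mkG N (1 + e00) e01 ((N : ℤ) * e10) (1 + e11) hdet (Dvd.intro _ rfl), ?_, ?_⟩
  · apply Subtype.ext
    apply ext_entries
    · rw [p00]; rfl
    · rw [p01]; rfl
    · rw [p10]; rfl
    · rw [p11]; rfl
  · rw [Matrix.trace_fin_two]
    show (1 + e00) + (1 + e11) = 2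
    linear_combination htrace

/-- **an additive character of `Γ₀(N)[1/q]` with values in a group without `q`-torsion whose
restriction to `Γ₀(N)` is parabolic kills every element of trace `2`** -/
theorem map_eq_zero_of_trace_eq_two {N q : ℕ} {F : Type*} [AddCommGroup F]
    (hF : ∀ f : F, q • f = 0 → f = 0) (Φ : Additive (GammaQ N q) →+ F)
    (hA : IsParabolicHom (Gamma0 N) (Φ.comp (MonoidHom.toAdditive (incA N q))))
    (g : GammaQ N q) (htr : g.1.1 0 0 + g.1.1 1 1 = 2) : Φ (Additive.ofMul g) = 0 := by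
  obtain ⟨k, γ, hγ, hγtr⟩ := exists_pow_eq_incA g htr
  have h1 : Φ (Additive.ofMul (incA N q γ)) = 0 := hA γ (by rw [hγtr]; norm_num)
  rw [← hγ, ofMul_pow, map_nsmul] at h1
  exact smul_pow_eq_zero hF k _ h1

end Fermat.Agent.S41.Ihara.Twist
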